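/-
S55 (Poitou-Tate), block LOCDUAL, leaf `BaseAbs` (ABSTRACT): the base case of the abstract duality theorem for a
ONE-DIMENSIONAL dualizing module `σ` (on `k` itself) and an open subgroup `V` acting trivially through `σ`:
if `tr ∘ cores : H²(V, σ) → k` is bijective then `alpha` is bijective on `coind L V triv`.
-/
import Fermat.Agent.PT.Duality.CoindFin

set_option autoImplicit false
set_option linter.unusedSectionVars false
set_option maxHeartbeats 400000

namespace Fermat.Agent.PT.LocDual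

variable {k : Type*} [Field k] {G : Type*} [Group G]

/-- The trace, as an element of `EHomOn ⊤`. -/
noncomputable def traceHom (L : LevelSystem G) (V : Subgroup G) (σ : Representation k G k)
    [Finite (CosetsIn (⊤ : Subgroup G) V)] : EHomOn ⊤ (coind L V σ) σ :=
  ⟨coindTrace L V σ, EHom.on (coindTrace_mem_EHom L V σ) ⊤⟩

/-- **Frobenius reciprocity** (one-dimensional case): every `G`-map `coind L V σ → σ` is a multiple of the trace.
PROOF.  `δ := Inj_mulm L V σ 1 _ (Inj_ind L V hV) ∈ X0 L V σ` (the indicator function of `V`), `c := φ δ`.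
For `F ∈ X0 L V σ`:  `F = ∑_q (F q.rep⁻¹) • coind L V σ q.rep δ`  (`q : CosetsIn ⊤ V`; evaluate at `x`:
`(coind q.rep δ) x = δ (x * q.rep) = 1` iff `x * q.rep ∈ V`, which holds for exactly one `q`
(`(isReps_rep ⊤ V).2 x⁻¹ trivial`), and then `F x = F ((x * q.rep) * q.rep⁻¹) = σ (x * q.rep) (F q.rep⁻¹) = F q.rep⁻¹`
by `hfix`).  Hence `φ F = ∑_q F q.rep⁻¹ • σ q.rep (φ δ) = ∑_q F q.rep⁻¹ • σ q.rep (c • 1) = c • ∑_q σ q.rep (F q.rep⁻¹)`
(`σ g` is `k`-linear on `k`: `σ g a = a • σ g 1`), which is `c • coindTrace F` (`shapiro_coindTrace_apply`). -/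
theorem exists_eq_smul_trace (L : LevelSystem G) (V : Subgroup G) (hV : L.IsOpen V)
    (σ : Representation k G k) (hfix : ∀ v ∈ V, σ v = 1) [Finite (CosetsIn (⊤ : Subgroup G) V)]
    (φ : EHomOn ⊤ (coind L V σ) σ) : ∃ c : k, φ = c • traceHom L V σ := by
  classical
  let _ := Fintype.ofFinite (CosetsIn (⊤ : Subgroup G) V)
  have hm : ∀ v ∈ V, σ v (1 : k) = 1 := fun v hv => by rw [hfix v hv]; rfl
  set δ : X0 L V σ := Inj_mulm L V σ 1 hm (Inj_ind L V hV) with hδ
  have hδx : ∀ x, (δ : G → k) x = if x ∈ V then 1 else 0 := by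
    intro x
    rw [hδ, Inj_mulm_apply_coe, Inj_ind_apply_coe, smul_eq_mul, mul_one]
  have hdecomp : ∀ F : X0 L V σ, F = ∑ q : CosetsIn (⊤ : Subgroup G) V,
      ((F : G → k) q.rep⁻¹) • coind L V σ q.rep δ := by
    intro F
    ext x
    rw [Submodule.coe_sum, Finset.sum_apply]
    obtain ⟨q, hq, hu⟩ := (isReps_rep (⊤ : Subgroup G) V).2 x⁻¹ trivial
    have hq' : x * q.rep ∈ V := by
      have := V.inv_mem hq
      simpa using this
    rw [Finset.sum_eq_single q]
    · have h2 := F.2.1 (x * q.rep) hq' q.rep⁻¹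
      rw [mul_inv_cancel_right, hfix _ hq'] at h2
      change _ = (F : G → k) q.rep⁻¹ • (δ : G → k) (x * q.rep)
      rw [hδx, if_pos hq', smul_eq_mul, mul_one]
      exact h2
    · intro q' _ hne
      change (F : G → k) q'.rep⁻¹ • (δ : G → k) (x * q'.rep) = 0
      rw [hδx, if_neg, smul_zero]
      intro h
      apply hne
      apply hu
      have := V.inv_mem h
      simpa using this
    · intro h
      exact absurd (Finset.mem_univ _) h
  refine ⟨φ.1 δ, ?_⟩
  apply Subtype.ext
  apply LinearMap.ext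
  intro F
  change φ.1 F = φ.1 δ • coindTrace L V σ F
  conv_lhs => rw [hdecomp F]
  rw [map_sum, shapiro_coindTrace_apply, Finset.smul_sum]
  apply Finset.sum_congr rfl
  intro q _
  rw [map_smul, φ.2 q.rep trivial δ]
  have h1 : ∀ a : k, σ q.rep a = a * σ q.rep 1 := fun a => by
    conv_lhs => rw [← mul_one a, ← smul_eq_mul, map_smul]
    rfl
  rw [h1 (φ.1 δ), h1 ((F : G → k) q.rep⁻¹), smul_eq_mul, smul_eq_mul]
  ring

/-- `alpha (trace) = tr ∘ cores ∘ shapiro` (`coindTrace_H2`). -/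
theorem alpha_traceHom (L : LevelSystem G) (V : Subgroup G) (σ : Representation k G k)
    (tr : H2 L ⊤ σ →ₗ[k] k) [Finite (CosetsIn (⊤ : Subgroup G) V)] (y : H2 L ⊤ (coind L V σ)) :
    alpha L ⊤ σ tr (coind L V σ) (traceHom L V σ) y =
      tr ((coresC L σ ⊤ V).H2 ((shapiroC L V σ).H2 y)) := by
  rw [alpha_apply, mapH2_apply]
  exact congrArg tr (coindTrace_H2 L V σ y)

/-- linear algebra: if `e : Y → k` is a bijective linear form, every linear form on `Y` is a multiple of `e`. -/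
theorem exists_eq_smul_of_bijective {Y : Type*} [AddCommGroup Y] [Module k Y] (e : Y →ₗ[k] k)
    (he : Function.Bijective e) (f : Y →ₗ[k] k) : ∃ c : k, f = c • e := by
  obtain ⟨y₁, hy₁⟩ := he.2 1
  refine ⟨f y₁, LinearMap.ext fun y => ?_⟩
  have h : y = e y • y₁ := he.1 (by rw [map_smul, hy₁, smul_eq_mul, mul_one])
  conv_lhs => rw [h]
  rw [map_smul, LinearMap.smul_apply, smul_eq_mul, smul_eq_mul, mul_comm]

/-- `alpha` is bijective on `coind L V σ`.
Put `e := tr ∘ cores ∘ shapiro` (bijective by `h` and `shapiro_bijective_H2`), `alpha T = e` (`alpha_traceHom`).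
Injective: `φ = c • T` (`exists_eq_smul_trace`), `alpha φ = c • e = 0`, `e ≠ 0` (surjective onto `k`) so `c = 0`.
Surjective: `exists_eq_smul_of_bijective`. -/
theorem alpha_bijective_coind_self (L : LevelSystem G) (V : Subgroup G) (hV : L.IsOpen V)
    (σ : Representation k G k) (hfix : ∀ v ∈ V, σ v = 1) (tr : H2 L ⊤ σ →ₗ[k] k)
    [Finite (CosetsIn (⊤ : Subgroup G) V)]
    (h : Function.Bijective (tr ∘ₗ (coresC L σ ⊤ V).H2)) :
    Function.Bijective (alpha L ⊤ σ tr (coind L V σ)) := by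
  have he : Function.Bijective
      ((tr ∘ₗ (coresC L σ ⊤ V).H2) ∘ₗ (shapiroC L V σ).H2) := by
    rw [LinearMap.coe_comp]
    exact h.comp (shapiro_bijective_H2 L V σ)
  have hT : alpha L ⊤ σ tr (coind L V σ) (traceHom L V σ) =
      (tr ∘ₗ (coresC L σ ⊤ V).H2) ∘ₗ (shapiroC L V σ).H2 :=
    LinearMap.ext fun y => alpha_traceHom L V σ tr y
  constructor
  · rw [injective_iff_map_eq_zero]
    intro φ hφ
    obtain ⟨c, rfl⟩ := exists_eq_smul_trace L V hV σ hfix φ
    rw [map_smul, hT] at hφ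
    obtain ⟨y₁, hy₁⟩ := he.2 1
    have h1 := congrArg (fun f => f y₁) hφ
    simp only [LinearMap.smul_apply, hy₁, LinearMap.zero_apply, smul_eq_mul, mul_one] at h1
    rw [h1, zero_smul]
  · intro f
    obtain ⟨c, hc⟩ := exists_eq_smul_of_bijective _ he f
    exact ⟨c • traceHom L V σ, by rw [map_smul, hT, hc]⟩

/-- **Base case.**  `coind L V triv ≅ coind L V σ` (identity on functions: `inj := Inj_mulm L V σ 1 _`,
`prj := CoindFin_coord L V σ _ LinearMap.id`), then `alpha_injective_of_sum`, `alpha_surjective_of_sum` with index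
type `Unit`, in the direction `ρ := coind L V triv`, `ρj := coind L V σ`
(so here `inj : coind σ → coind triv` is `CoindFin_coord`, `prj : coind triv → coind σ` is `Inj_mulm`). -/
theorem alpha_bijective_coind_triv (L : LevelSystem G) (V : Subgroup G) (hV : L.IsOpen V)
    (σ : Representation k G k) (hfix : ∀ v ∈ V, σ v = 1) (tr : H2 L ⊤ σ →ₗ[k] k)
    [Finite (CosetsIn (⊤ : Subgroup G) V)]
    (h : Function.Bijective (tr ∘ₗ (coresC L σ ⊤ V).H2)) :
    Function.Bijective (alpha L ⊤ σ tr (coind L V (trivK k G))) := by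
  have hfix' : ∀ v ∈ V, ∀ a, σ v a = a := fun v hv a => by rw [hfix v hv]; rfl
  have hb := alpha_bijective_coind_self L V hV σ hfix tr h
  let inj : ∀ _ : Unit, EHomOn ⊤ (coind L V σ) (coind L V (trivK k G)) :=
    fun _ => ⟨CoindFin_coord L V σ hfix' LinearMap.id, fun g _ F => by
      ext x
      rfl⟩
  let prj : ∀ _ : Unit, EHomOn ⊤ (coind L V (trivK k G)) (coind L V σ) :=
    fun _ => ⟨Inj_mulm L V σ 1 (fun v hv => hfix' v hv 1), fun g _ F => by
      ext x
      rfl⟩
  have hsum : ∑ j, (inj j).1 ∘ₗ (prj j).1 = LinearMap.id := by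
    apply LinearMap.ext
    intro F
    ext x
    rw [Fintype.sum_unique]
    change (F : G → k) x • (1 : k) = (F : G → k) x
    rw [smul_eq_mul, mul_one]
  exact ⟨alpha_injective_of_sum L ⊤ σ tr _ _ inj prj hsum (fun _ => hb.1),
    alpha_surjective_of_sum L ⊤ σ tr _ _ inj prj hsum (fun _ => hb.2)⟩

end Fermat.Agent.PT.LocDual
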