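/-
S55 (Poitou-Tate), block LOCDUAL, leaf `Rel` (ABSTRACT): change of the ambient group `G ⇝ ↥D` for subgroups
`E ≤ D ≤ G`: restriction of functions from `G` to `D` commutes with coefficient maps and with corestriction.
Complements `PT/Coh/Rel.lean` (which proves bijectivity on cohomology).
-/
import Fermat.Agent.PT.Coh.Rel
import Fermat.Agent.PT.Coh.Cores
import Fermat.Agent.PT.Duality.Inj

set_option autoImplicit false
set_option linter.unusedSectionVars false

namespace Fermat.Agent.PT.LocDual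

variable {k : Type*} [CommRing k] {G : Type*} [Group G]
  {A B : Type*} [AddCommGroup A] [Module k A] [AddCommGroup B] [Module k B]

lemma isPair_relC (L : LevelSystem G) (ρ : Representation k G A) (D : Subgroup G)
    {V : Subgroup ↥D} {E : Subgroup G} (hE : V.map D.subtype = E) :
    IsPair D.subtype (LinearMap.id : A →ₗ[k] A) L E ρ (L.induced D) V (ρ.comp D.subtype) where
  cont U hU := ⟨U.comap D.subtype, ⟨U, hU, rfl⟩, le_rfl⟩
  map_mem v hv := hE ▸ Subgroup.mem_map_of_mem _ hv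
  equiv _ _ _ := rfl

/-- Restriction of functions from `G` to `D`, on the complexes of `E = V.map D.subtype`, resp. `V`. -/
def relC (L : LevelSystem G) (ρ : Representation k G A) (D : Subgroup G)
    {V : Subgroup ↥D} {E : Subgroup G} (hE : V.map D.subtype = E) :
    CMap L E ρ (L.induced D) V (ρ.comp D.subtype) := pairC (isPair_relC L ρ D hE)

theorem relC_bijective_H2 (L : LevelSystem G) (ρ : Representation k G A) (D : Subgroup G)
    {V : Subgroup ↥D} {E : Subgroup G} (hE : V.map D.subtype = E) :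
    Function.Bijective (relC L ρ D hE).H2 :=
  ⟨rel_injective_H2 _ hE, rel_surjective_H2 _ hE⟩

/-- `V`-equivariance for `D`, seen in `↥D`. -/
lemma mem_EHomOn_comp {D : Subgroup G} {ρ : Representation k G A} {σ : Representation k G B}
    {φ : A →ₗ[k] B} (hφ : φ ∈ EHomOn D ρ σ) :
    φ ∈ EHomOn ⊤ (ρ.comp D.subtype) (σ.comp D.subtype) :=
  fun v _ a => hφ v.1 v.2 a

lemma mem_EHomOn_of_comp {D : Subgroup G} {ρ : Representation k G A} {σ : Representation k G B}
    {φ : A →ₗ[k] B} (hφ : φ ∈ EHomOn ⊤ (ρ.comp D.subtype) (σ.comp D.subtype)) :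
    φ ∈ EHomOn D ρ σ :=
  fun v hv a => hφ ⟨v, hv⟩ trivial a

/-- Restriction to `D` commutes with coefficient maps (both sides are `φ ∘ z ∘ D.subtype³` on cocycles:
`obtain ⟨z, rfl⟩ := H2.mk_surjective ..; rfl` or `CMap.H2_mk` + `Subtype.ext` + `funext`). -/
theorem relSubC_mapH2 (L : LevelSystem G) (D : Subgroup G) (ρ : Representation k G A)
    (σ : Representation k G B) (φ : EHomOn D ρ σ) (x : H2 L D ρ) :
    (relSubC L σ D).H2 (mapH2 L D ρ σ φ x) =
      mapH2 (L.induced D) ⊤ (ρ.comp D.subtype) (σ.comp D.subtype) ⟨φ.1, mem_EHomOn_comp φ.2⟩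
        ((relSubC L ρ D).H2 x) := by
  obtain ⟨z, rfl⟩ := H2.mk_surjective L D ρ x
  rfl

/-- An `(L.induced D)`-open subgroup `V` of `↥D`: its image `E` in `G` is relatively open in `D`. -/
theorem exists_level_inf_le {L : LevelSystem G} {D : Subgroup G} {V : Subgroup ↥D}
    (hV : (L.induced D).IsOpen V) {E : Subgroup G} (hE : V.map D.subtype = E) :
    E ≤ D ∧ ∃ U ∈ L, D ⊓ U ≤ E := by
  obtain ⟨W, ⟨U, hU, rfl⟩, hWV⟩ := hV
  refine ⟨?_, U, hU, ?_⟩
  · rw [← hE]
    rintro _ ⟨v, -, rfl⟩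
    exact v.2
  · rintro g ⟨hgD, hgU⟩
    rw [← hE]
    exact ⟨⟨g, hgD⟩, hWV (Subgroup.mem_comap.mpr hgU), rfl⟩

/-- (`E.subgroupOf D = V`, `V` has finite index in `↥D` since it contains `U.comap D.subtype`, `U ∈ L`.) -/
theorem finite_cosetsIn_map {L : LevelSystem G} {D : Subgroup G} {V : Subgroup ↥D}
    (hV : (L.induced D).IsOpen V) {E : Subgroup G} (hE : V.map D.subtype = E) :
    Finite (CosetsIn D E) := by
  obtain ⟨W, ⟨U, hU, rfl⟩, hWV⟩ := hV
  have hfW : (U.comap D.subtype).FiniteIndex := (L.induced D).finiteIndex' _ ⟨U, hU, rfl⟩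
  have hfV : V.FiniteIndex := Subgroup.finiteIndex_of_le hWV
  have hEV : E.subgroupOf D = V := by
    rw [← hE]
    exact Subgroup.comap_map_eq_self_of_injective D.subtype_injective V
  apply Nat.finite_of_card_ne_zero
  have h1 : Nat.card (CosetsIn D E) = (E.subgroupOf D).index := rfl
  rw [h1, hEV]
  exact hfV.index_ne_zero

/-- the images in `G` of the chosen representatives of `↥D / V` represent `D / E`. -/
theorem isReps_map (D : Subgroup G) (V : Subgroup ↥D) {E : Subgroup G} (hE : V.map D.subtype = E) :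
    IsReps D E (fun q : CosetsIn (⊤ : Subgroup ↥D) V => ((q.rep : ↥D) : G)) := by
  have hmem : ∀ x : ↥D, (x : G) ∈ E ↔ x ∈ V := by
    intro x
    rw [← hE]
    exact Subgroup.mem_map_iff_mem (Subgroup.subtype_injective D)
  refine ⟨fun q => (q.rep : ↥D).2, fun v hv => ?_⟩
  obtain ⟨q, hq, huniq⟩ := (isReps_rep (⊤ : Subgroup ↥D) V).2 ⟨v, hv⟩ trivial
  refine ⟨q, (hmem ((q.rep)⁻¹ * ⟨v, hv⟩)).2 hq, fun q' hq' => huniq q' ?_⟩
  exact (hmem ((q'.rep)⁻¹ * ⟨v, hv⟩)).1 hq'

/-- **Restriction to `D` commutes with corestriction.**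
On a cocycle `z ∈ Z2 L E ρ`, at `(d₀,d₁,d₂) ∈ D³`:  LHS `= cor2 ρ D E z d₀ d₁ d₂ = ∑_q tw2 ρ ↑q.rep z d₀ d₁ d₂`
(`cor2_eq_sum (isReps_map D V hE) z.2.1`), RHS `= ∑_q tw2 (ρ.comp D.subtype) q.rep (z ∘ D.subtype³) d₀ d₁ d₂`
(definition of `cor2`, or `cor2_eq_sum (isReps_rep ⊤ V)`), equal term by term (`tw2_apply`). -/
theorem relC_coresC_H2 (L : LevelSystem G) (ρ : Representation k G A) (D : Subgroup G)
    {V : Subgroup ↥D} {E : Subgroup G} (hE : V.map D.subtype = E)
    [Finite (CosetsIn D E)] [Finite (CosetsIn (⊤ : Subgroup ↥D) V)] (x : H2 L E ρ) :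
    (relSubC L ρ D).H2 ((coresC L ρ D E).H2 x) =
      (coresC (L.induced D) (ρ.comp D.subtype) ⊤ V).H2 ((relC L ρ D hE).H2 x) := by
  letI := Fintype.ofFinite (CosetsIn (⊤ : Subgroup ↥D) V)
  obtain ⟨z, rfl⟩ := H2.mk_surjective L E ρ x
  simp only [CMap.H2_mk]
  congr 1
  apply Subtype.ext
  funext d₀ d₁ d₂
  have hz' : ((relC L ρ D hE).Z2 z : ↥D → ↥D → ↥D → A) ∈
      X2 (L.induced D) V (ρ.comp D.subtype) := ((relC L ρ D hE).Z2 z).2.1
  simp only [CMap.coe_Z2, coresC, relC, relSubC, pairC, pp2_apply, LinearMap.id_apply] at hz' ⊢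
  rw [cor2_eq_sum (isReps_map D V hE) z.2.1, cor2_eq_sum (isReps_rep ⊤ V) hz']
  simp only [Finset.sum_apply, tw2_apply, pp2_apply, LinearMap.id_apply]
  rfl

lemma isSmoothRep_comp {L : LevelSystem G} {ρ : Representation k G A} (hρ : IsSmoothRep L ρ)
    (D : Subgroup G) : IsSmoothRep (L.induced D) (ρ.comp D.subtype) := by
  intro a
  obtain ⟨U, hU, h⟩ := hρ a
  exact ⟨U.comap D.subtype, ⟨U, hU, rfl⟩, fun u hu => h u.1 hu⟩

end Fermat.Agent.PT.LocDual
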