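/-
S55 (Poitou-Tate), block LOCDUAL: the ABSTRACT relative duality theorem.
`D ≤ G` any subgroup, `σ` a one-dimensional representation of `G` over `F_p`, trivial on an open normal subgroup `G1`
of index prime to `p`; `tr : H²(D, σ) → F_p` bijective; corestriction `H²(E, σ) → H²(D, σ)` bijective for all
relatively open `E ≤ D`.  Then every linear form on `H²(D, ρ)` (`ρ` finite smooth) is `tr ∘ φ_*`, `φ ∈ Hom_D(ρ, σ)`.
-/
import Fermat.Agent.PT.LocDual.Rel
import Fermat.Agent.PT.LocDual.BaseAbs
import Fermat.Agent.PT.Duality.Abstract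

set_option autoImplicit false
set_option linter.unusedSectionVars false
set_option maxHeartbeats 400000

namespace Fermat.Agent.PT.LocDual

section Transfer

variable {k : Type*} [CommRing k] {G : Type*} [Group G]
  {A B : Type*} [AddCommGroup A] [Module k A] [AddCommGroup B] [Module k B]

/-- the linear form on `H²(↥D, σ)` corresponding to `tr`. -/
noncomputable def trInd (L : LevelSystem G) (D : Subgroup G) (σ : Representation k G B)
    (tr : H2 L D σ →ₗ[k] k) : H2 (L.induced D) ⊤ (σ.comp D.subtype) →ₗ[k] k :=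
  tr ∘ₗ (LinearEquiv.ofBijective (relSubC L σ D).H2 (relSub_bijective_H2 L σ D)).symm.toLinearMap

theorem trInd_relSubC (L : LevelSystem G) (D : Subgroup G) (σ : Representation k G B)
    (tr : H2 L D σ →ₗ[k] k) (x : H2 L D σ) : trInd L D σ tr ((relSubC L σ D).H2 x) = tr x := by
  unfold trInd
  rw [LinearMap.comp_apply]
  congr 1
  exact (LinearEquiv.ofBijective (relSubC L σ D).H2 (relSub_bijective_H2 L σ D)).symm_apply_apply x

theorem trInd_bijective (L : LevelSystem G) (D : Subgroup G) (σ : Representation k G B)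
    (tr : H2 L D σ →ₗ[k] k) (h : Function.Bijective tr) : Function.Bijective (trInd L D σ tr) := by
  unfold trInd
  rw [LinearMap.coe_comp]
  exact h.comp (LinearEquiv.bijective _)

/-- **Transfer**: surjectivity of `alpha` for the group `↥D` implies surjectivity in the relative model. -/
theorem alpha_surjective_of_induced (L : LevelSystem G) (D : Subgroup G) (σ : Representation k G B)
    (tr : H2 L D σ →ₗ[k] k) (ρ : Representation k G A)
    (h : Function.Surjective
      (alpha (L.induced D) ⊤ (σ.comp D.subtype) (trInd L D σ tr) (ρ.comp D.subtype))) :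
    Function.Surjective (alpha L D σ tr ρ) := by
  intro f
  obtain ⟨φ', hφ'⟩ := h (f ∘ₗ
    (LinearEquiv.ofBijective (relSubC L ρ D).H2 (relSub_bijective_H2 L ρ D)).symm.toLinearMap)
  refine ⟨⟨φ'.1, mem_EHomOn_of_comp φ'.2⟩, LinearMap.ext fun x => ?_⟩
  have h1 := congrArg (fun g => g ((relSubC L ρ D).H2 x)) hφ'
  simp only [alpha_apply, LinearMap.comp_apply] at h1
  rw [alpha_apply, ← trInd_relSubC, relSubC_mapH2]
  refine h1.trans (congrArg f ?_)
  exact (LinearEquiv.ofBijective (relSubC L ρ D).H2 (relSub_bijective_H2 L ρ D)).symm_apply_apply x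

end Transfer

variable {p : ℕ} [Fact p.Prime] {G : Type*} [Group G]
variable {A : Type*} [AddCommGroup A] [Module (ZMod p) A]

/-- **Abstract relative duality.** -/
theorem alpha_surjective_rel (L : LevelSystem G) (D : Subgroup G)
    (σ : Representation (ZMod p) G (ZMod p)) (tr : H2 L D σ →ₗ[ZMod p] ZMod p)
    (G1 : Subgroup G) [G1.Normal] (hG1 : L.IsOpen G1) (hidx : ¬ p ∣ G1.index)
    (hσ : ∀ g ∈ G1, σ g = 1) (htr : Function.Bijective tr)
    (hcor : ∀ E : Subgroup G, E ≤ D → (∃ U ∈ L, D ⊓ U ≤ E) → ∀ [Finite (CosetsIn D E)],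
      Function.Bijective (coresC L σ D E).H2)
    [Module.Finite (ZMod p) A] (ρ : Representation (ZMod p) G A) (hρ : IsSmoothRep L ρ) :
    Function.Surjective (alpha L D σ tr ρ) := by
  apply alpha_surjective_of_induced
  have hG1' : (L.induced D).IsOpen (G1.subgroupOf D) := by
    obtain ⟨U, hU, hle⟩ := hG1
    exact ⟨U.comap D.subtype, ⟨U, hU, rfl⟩, Subgroup.comap_mono hle⟩
  have hidx' : ¬ p ∣ (G1.subgroupOf D).index := fun h =>
    hidx (h.trans (Subgroup.relIndex_dvd_index_of_normal G1 D))
  refine (alpha_bijective (L.induced D) (σ.comp D.subtype) (trInd L D σ tr) (G1.subgroupOf D) hG1'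
    hidx' (fun V hV hle => ?_) (ρ.comp D.subtype) (isSmoothRep_comp hρ D)).2
  haveI := finite_cosetsIn_of_isOpen hV
  haveI := finite_cosetsIn_map hV rfl
  obtain ⟨hED, hop⟩ := exists_level_inf_le hV rfl
  apply alpha_bijective_coind_triv (L.induced D) V hV (σ.comp D.subtype)
    (fun v hv => hσ v.1 (hle hv))
  -- `cores' ∘ rel = rel ∘ cores`
  have hc := hcor (V.map D.subtype) hED hop
  have hr := relC_bijective_H2 L σ D (V := V) rfl
  have hs := relSub_bijective_H2 L σ D
  have hcomp : (coresC (L.induced D) (σ.comp D.subtype) ⊤ V).H2 ∘ (relC L σ D (V := V) rfl).H2 =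
      (relSubC L σ D).H2 ∘ (coresC L σ D (V.map D.subtype)).H2 := by
    funext x
    exact (relC_coresC_H2 L σ D rfl x).symm
  have hcor' : Function.Bijective (coresC (L.induced D) (σ.comp D.subtype) ⊤ V).H2 := by
    have h1 : Function.Bijective
        ((coresC (L.induced D) (σ.comp D.subtype) ⊤ V).H2 ∘ (relC L σ D (V := V) rfl).H2) := by
      rw [hcomp]; exact hs.comp hc
    exact (Function.Bijective.of_comp_iff _ hr).1 h1
  rw [LinearMap.coe_comp]
  exact (trInd_bijective L D σ tr htr).comp hcor'

end Fermat.Agent.PT.LocDual
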