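/-
S55 (Poitou-Tate), block LOCDUAL: `LocalDualityStatement lam` (contract of `PT/Duality/Global.lean`) for ANY family
of nonzero local functionals, from `LocalCardStatement p` and `LocalCoresStatement p` (block L).
-/
import Fermat.Agent.PT.LocDual.Abs
import Fermat.Agent.PT.Duality.Global
import Fermat.Agent.PT.B.Galois

set_option autoImplicit false
set_option maxHeartbeats 400000

open ExtCitation

noncomputable section

namespace Fermat.Agent.PT

/-- CONTRACT with block L (= `Local.localCores_bijective` with `V = ⊤`): corestriction is bijective on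
`H²(·, μ_p)` of local fields. -/
def LocalCoresStatement (p : ℕ) [Fact p.Prime] : Prop :=
  ∀ 𝒜 : Place, 𝒜.IsFin → ∀ E : Subgroup GQ, E ≤ ⊤ ⊓ Dec 𝒜 → (∃ U ∈ Lall, (⊤ ⊓ Dec 𝒜) ⊓ U ≤ E) →
    ∀ [Finite (CosetsIn (⊤ ⊓ Dec 𝒜) E)], Function.Bijective (coresC Lall (cycRep p) (⊤ ⊓ Dec 𝒜) E).H2

namespace LocDual

/-- The Prelude place `primeLocalPlace q` lies over `q`:  `(q : Qbar) ∈ nonunits` means
`‖padicEmbedding q q‖ < 1` (`ValuationSubring.mem_nonunits_iff_exists_mem_maximalIdeal` or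
`Levels_mem_nonunits_iff` of `PT/Bridge/Levels.lean`: `x ∈ A.nonunits ↔ x ∈ A ∧ x⁻¹ ∉ A` (check its exact form);
`mem_padicPlace_iff`, `map_natCast`, `map_inv₀`; the norm of `(q : PadicAlgCl q)` is `q⁻¹`: pattern in
`PT/Bridge/LocalRange.lean` lines 30-40). -/
theorem primeLocalPlace_liesOver (q : Nat.Primes) : (primeLocalPlace q).LiesOverPrime (q : ℕ) := by
  have : Fact (q : ℕ).Prime := ⟨q.2⟩
  show (((q : ℕ) : ℕ) : Qbar) ∈ (padicPlace (q : ℕ)).nonunits
  rw [Levels_mem_nonunits_iff]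
  right
  rw [mem_padicPlace_iff, map_inv₀, map_natCast, ← NNReal.coe_le_coe, coe_nnnorm, norm_inv,
    NNReal.coe_one]
  have h : (((q : ℕ) : ℕ) : PadicAlgCl (q : ℕ)) =
      algebraMap ℚ_[(q : ℕ)] (PadicAlgCl (q : ℕ)) (((q : ℕ) : ℕ) : ℚ_[(q : ℕ)]) :=
    (map_natCast _ _).symm
  rw [h, PadicAlgCl.norm_extends, Padic.norm_p, inv_inv, not_le]
  exact_mod_cast q.2.one_lt

theorem primeLocalPlace_isFin (q : Nat.Primes) : Place.IsFin (primeLocalPlace q) :=
  ⟨q, primeLocalPlace_liesOver q⟩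

variable {p : ℕ} [Fact p.Prime]

/-- A nonzero linear form on an `F_p`-vector space with `p` elements is bijective
(surjective since nonzero (`LinearMap.surjective_of_ne_zero`-type lemma, or `c ↦ c • y₀`); then bijective by
`Nat.card` (`Function.Surjective.bijective_of_nat_card_le`, `Nat.card_zmod`), the space is `Finite` by
`Nat.finite_of_card_ne_zero`). -/
theorem bijective_of_card_eq {Y : Type*} [AddCommGroup Y] [Module (ZMod p) Y] (hY : Nat.card Y = p)
    (f : Y →ₗ[ZMod p] ZMod p) (hf : f ≠ 0) : Function.Bijective f := by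
  have hp : p ≠ 0 := (Fact.out : p.Prime).ne_zero
  have : Finite Y := Nat.finite_of_card_ne_zero (by rw [hY]; exact hp)
  have hsurj : Function.Surjective f := LinearMap.surjective hf
  exact hsurj.bijective_of_nat_card_le (by rw [hY, Nat.card_zmod])

theorem cycRep_eq_one_of_mem_G1 {g : GQ} (hg : g ∈ G1 p) : cycRep p g = 1 := by
  have h1 : cycloChar p g = 1 := hg
  ext
  simp [cycRep_apply, h1]

/-- **Local duality.** -/
theorem localDuality (hLC : LocalCardStatement p) (hCor : LocalCoresStatement p)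
    {S : Finset Nat.Primes} (lam : LocalFunctionals p S) (hlam : ∀ ℓ, lam ℓ ≠ 0) :
    LocalDualityStatement lam := by
  intro ℓ A _ _ _ ρ hρ
  have hfin := primeLocalPlace_isFin ℓ.1
  obtain ⟨U₀, hU₀⟩ := Lall.nonempty'
  exact alpha_surjective_rel Lall (⊤ ⊓ Dl ℓ.1) (cycRep p) (lam ℓ) (G1 p) (G1_isOpen p) (G1_index p)
    (fun g hg => cycRep_eq_one_of_mem_G1 hg)
    (bijective_of_card_eq (hLC ⊤ ⟨U₀, hU₀, le_top⟩ _ hfin) (lam ℓ) (hlam ℓ))
    (fun E hE hop => hCor _ hfin E hE hop) ρ hρ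

end LocDual

end Fermat.Agent.PT

end
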