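/-
S55 (Poitou-Tate), block LOCDUAL: local duality with the inputs of block L plugged in.
-/
import Fermat.Agent.PT.LocDual.Main
import Fermat.Agent.PT.Local.LocalCores

set_option autoImplicit false

open ExtCitation

namespace Fermat.Agent.PT.LocDual

variable (p : ℕ) [Fact p.Prime]

theorem localCoresStatement : LocalCoresStatement p := by
  intro 𝒜 h𝒜 E hE hop _
  obtain ⟨U₀, hU₀⟩ := Lall.nonempty'
  exact Local.localCores_bijective p h𝒜 ⟨U₀, hU₀, le_top⟩ hE hop

variable {p}

/-- **Local duality** (contract `LocalDualityStatement` of `PT/Duality/Global.lean`). -/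
theorem localDualityQ {S : Finset Nat.Primes} (lam : LocalFunctionals p S) (hlam : ∀ ℓ, lam ℓ ≠ 0) :
    LocalDualityStatement lam :=
  localDuality (Local.localCard p) (localCoresStatement p) lam hlam

end Fermat.Agent.PT.LocDual
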